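import Fermat.Agent.HooleyCubic.Tail

/-!
# The density of squarefree values, factors of degree at most three

A large prime square in `f n` is one in a single factor `g n`; for `deg g ≤ 1` it is impossible,
otherwise it is rare.
-/

set_option autoImplicit false

noncomputable section

open Polynomial Finset Filter
open scoped Classical Topology

namespace FA.HooleyCubic

open FA.SquarefreeValues

theorem exists_linear_huge_empty (g : ℤ[X]) (h1 : g.natDegree ≤ 1) :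
    ∃ N₀ : ℕ, ∀ N n p : ℕ, N₀ ≤ N → n < N → N ≤ p → g.eval (n : ℤ) ≠ 0 →
      ¬(p : ℤ) ^ 2 ∣ g.eval (n : ℤ) := by
  refine ⟨∑ i ∈ range (g.natDegree + 1), (g.coeff i).natAbs + 1, fun N n p hN hn hp h0 hd => ?_⟩
  rw [← Nat.cast_pow, Int.natCast_dvd] at hd
  have h2 := (Nat.le_of_dvd (Int.natAbs_pos.2 h0) hd).trans (eval_natAbs_le g hn h1)
  rw [pow_one] at h2
  have h3 : N * N ≤ p ^ 2 := by rw [sq]; exact Nat.mul_le_mul hp hp
  nlinarith

/-- **The density of squarefree values.** -/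
theorem density_of_factors_le_three {f : ℤ[X]} (hsep : (f.map (Int.castRingHom ℚ)).Separable)
    (hfac : ∀ g : ℤ[X], Irreducible g → g ∣ f → g.natDegree ≤ 3) :
    Tendsto (fun N : ℕ => ((sfValues f N).card : ℝ) / N) atTop (𝓝 (sfDensity f)) := by
  refine density_of_bigBad hsep fun η hη => ?_
  obtain ⟨s, D, hD, hs, hfactor⟩ := GreavesForms.exists_factors hsep
  set t := s.toFinset with ht
  set ε := η / (t.card + 1) with hε
  have hK : ∀ g : ℤ[X], ∃ K N₀ : ℕ, g ∈ s → ∀ N, N₀ ≤ N →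
      (((range N).filter fun n : ℕ => g.eval (n : ℤ) ≠ 0 ∧ ∃ p : ℕ, p.Prime ∧ (K + 1) * N ≤ p ∧
        (p : ℤ) ^ 2 ∣ g.eval (n : ℤ)).card : ℝ) ≤ ε * N := fun g => by
    by_cases hg : g ∈ s
    swap
    · exact ⟨0, 0, fun h => absurd h hg⟩
    rcases le_or_gt g.natDegree 1 with h1 | h1
    · obtain ⟨N₀, hN₀⟩ := exists_linear_huge_empty g h1
      refine ⟨0, N₀, fun _ N hN => ?_⟩
      rw [filter_eq_empty_iff.2, card_empty, Nat.cast_zero]
      · positivity
      · rintro n hn ⟨h0, p, -, hp, hd⟩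
        exact hN₀ N n p hN (mem_range.1 hn) (by simpa using hp) h0 hd
    · obtain ⟨K, hK⟩ := exists_huge_values_le (hs g hg).1 h1 (hfac g (hs g hg).1 (hs g hg).2)
        (show 0 < ε by positivity)
      refine ⟨K, 0, fun _ N _ => le_trans (Nat.cast_le.2 (card_le_card fun n hn => ?_)) (hK N)⟩
      obtain ⟨h1, -, p, hp, hKp, hd⟩ := mem_filter.1 hn
      exact mem_filter.2 ⟨h1, p, hp, (Nat.mul_le_mul_right N (Nat.le_succ K)).trans hKp, hd⟩
  choose Kg Ng hKg using hK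
  refine ⟨(∑ g ∈ t, Kg g) + 1,
    eventually_atTop.2 ⟨(∑ g ∈ t, Ng g) + D.natAbs + 1, fun N hN => ?_⟩⟩
  set K := (∑ g ∈ t, Kg g) + 1 with hKdef
  have hsub : bigBad f (K * N) N ⊆ t.biUnion fun g => (range N).filter fun n : ℕ =>
      g.eval (n : ℤ) ≠ 0 ∧ ∃ p : ℕ, p.Prime ∧ (Kg g + 1) * N ≤ p ∧
        (p : ℤ) ^ 2 ∣ g.eval (n : ℤ) := by
    intro n hn
    obtain ⟨hn1, h0, p, hp, hLp, hd⟩ := mem_filter.1 hn
    have hpD : ¬(p : ℤ) ∣ D := fun h => by
      have h1 := Nat.le_of_dvd (Int.natAbs_pos.2 hD) (Int.natCast_dvd.1 h)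
      have h2 : N ≤ K * N := Nat.le_mul_of_pos_left N (by omega)
      omega
    obtain ⟨g, hg, hgd⟩ := hfactor p n hp hpD hd
    have hgt : g ∈ t := ht ▸ Multiset.mem_toFinset.2 hg
    refine mem_biUnion.2 ⟨g, hgt, mem_filter.2 ⟨hn1, fun h => h0
      (eval_eq_zero_of_dvd_of_eval_eq_zero (hs g hg).2 h), p, hp, ?_, hgd⟩⟩
    exact (Nat.mul_le_mul_right N (Nat.succ_le_succ
      (single_le_sum (f := Kg) (fun _ _ => Nat.zero_le _) hgt))).trans hLp
  refine (Nat.cast_le.2 ((card_le_card hsub).trans card_biUnion_le)).trans ?_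
  push_cast
  refine (sum_le_card_nsmul _ _ (ε * N) fun g hg => hKg g (Multiset.mem_toFinset.1 (ht ▸ hg)) N
    ((single_le_sum (f := Ng) (fun _ _ => Nat.zero_le _) hg).trans (by omega))).trans ?_
  rw [nsmul_eq_mul, ← mul_assoc]
  refine mul_le_mul_of_nonneg_right ?_ (Nat.cast_nonneg _)
  rw [hε, mul_div_assoc', div_le_iff₀ (by positivity)]
  nlinarith

end FA.HooleyCubic

end
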