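import Fermat.Agent.GreavesSix.Main
import Fermat.Agent.SquarefreeValues.Sieve

/-!
# A prime square beyond `N` in the value of a cubic

`p² q = |g n|` with `p ≥ K N` makes `q = O (N / K²)` and `± m g n` a square, `m` the squarefree
part of `q`. In each of the `ρ m` classes `n = r + m t` the segment of length `N / m` is sieved
by the primes of `(T, T²]`, `T ⁴` about `N / m`.
-/

set_option autoImplicit false

noncomputable section

open Polynomial Finset Filter

namespace FA.HooleyCubic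

open FA.RichertValues (rootMod)
open scoped Classical Topology

variable {g : ℤ[X]}

theorem form_one (g : ℤ[X]) (n : ℤ) : Thue.form g n 1 = g.eval n := by
  simp [Thue.form, eval_eq_sum_range]

theorem eval_natAbs_le (g : ℤ[X]) {N n d : ℕ} (hn : n < N) (hd : g.natDegree ≤ d) :
    (g.eval (n : ℤ)).natAbs ≤
      (∑ i ∈ range (g.natDegree + 1), (g.coeff i).natAbs) * N ^ d := by
  rw [← form_one]
  refine (GreavesForms.form_natAbs_le g (B := N) ?_ ?_).trans
    (Nat.mul_le_mul_left _ (Nat.pow_le_pow_right (by omega) hd))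
  · rw [Nat.abs_cast, Nat.cast_le]; exact hn.le
  · rw [abs_one]; omega

/-- The `n < N` of the classes of `m`. -/
def squareClass (g : ℤ[X]) (c : ℤ) (m N : ℕ) : Finset ℕ :=
  (range N).filter fun n => (m : ℤ) ∣ g.eval (n : ℤ) ∧ IsSquare (c * m * g.eval (n : ℤ))

theorem squareClass_card_le {c : ℤ} {m A N : ℕ} (hm : 0 < m) (hA : N / m < A) {Kb : ℝ}
    (hline : ∀ r : ℤ, ((Ioc 0 A).filter fun t : ℕ =>
      IsSquare (c * m * Thue.form g ((m : ℤ) * t + r) ((0 : ℤ) * t + 1))).card ≤ Kb) :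
    ((squareClass g c m N).card : ℝ) ≤ rootMod g m * Kb := by
  rw [card_eq_sum_card_fiberwise (f := fun n => n % m)
    (t := (range m).filter fun r : ℕ => (m : ℤ) ∣ g.eval (r : ℤ)) fun n hn => mem_filter.2
      ⟨mem_range.2 (Nat.mod_lt _ hm),
        (SquarefreeValues.dvd_eval_mod g dvd_rfl n).2 (mem_filter.1 hn).2.1⟩,
    Nat.cast_sum, rootMod, ← nsmul_eq_mul, ← sum_const]
  refine sum_le_sum fun r _ => le_trans (Nat.cast_le.2 (card_le_card_of_injOn
    (fun n => n / m + 1) (fun n hn => ?_) fun n hn n' hn' h => ?_)) (hline ((r : ℤ) - m))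
  · obtain ⟨hn1, hr⟩ := mem_filter.1 hn
    obtain ⟨hnN, -, hsq⟩ := mem_filter.1 hn1
    have hdiv : n / m ≤ N / m := Nat.div_le_div_right (mem_range.1 hnN).le
    simp only [mem_coe, mem_filter, mem_Ioc]
    refine ⟨⟨Nat.succ_pos _, by omega⟩, ?_⟩
    have e : (m : ℤ) * ((n / m + 1 : ℕ) : ℤ) + ((r : ℤ) - m) = n := by
      conv_rhs => rw [← Nat.div_add_mod n m, hr]
      push_cast
      ring
    rw [e, zero_mul, zero_add, form_one]
    exact hsq
  · rw [← Nat.div_add_mod n m, ← Nat.div_add_mod n' m, Nat.succ_injective h,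
      (mem_filter.1 hn).2, (mem_filter.1 hn').2]

/-- **One level.** -/
theorem exists_level_bound (hirr : Irreducible g) (h2 : 2 ≤ g.natDegree) :
    ∃ (K : ℝ) (T₁ : ℕ), 0 < K ∧ ∀ T : ℕ, T₁ ≤ T → ∀ (N : ℕ) (c : ℤ), c.natAbs = 1 →
      ∑ m ∈ (Icc 1 (N / T ^ 4)).filter (fun m => N < 16 * (m * T ^ 4)),
        ((squareClass g c m N).card : ℝ) ≤ K * N / T := by
  have hd : 0 < g.natDegree := by omega
  have hg0 : g ≠ 0 := hirr.ne_zero
  obtain ⟨R, -, hR⟩ := ErdosDivisor.exists_rootMod_pow_le hirr hd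
  obtain ⟨C, hC, hmean⟩ := GreavesSix.root_mean_linear hirr hd
  obtain ⟨D, u, v, hD, hbez⟩ := SquarefreeValues.exists_bezout (f := g)
    ((IsPrimitive.Int.irreducible_iff_irreducible_map_cast (hirr.isPrimitive hd.ne')).1
      hirr).separable
  obtain ⟨T₀, hT₀⟩ := eventually_atTop.1 GreavesSix.eventually_five_mul_le_primeCounting
  refine ⟨C * (68 + 32 * R),
    T₀ + 2 + D.natAbs + g.leadingCoeff.natAbs + 16 * g.natDegree ^ 2, by positivity,
    fun T hT N c hc => ?_⟩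
  set P := (Ioc T (T ^ 2)).filter Nat.Prime
  have hPmem : ∀ q ∈ P, q.Prime ∧ T < q ∧ q ≤ T ^ 2 := fun q hq => by
    rw [mem_filter, mem_Ioc] at hq
    exact ⟨hq.2, hq.1⟩
  have hPcard : 4 * T ≤ P.card := GreavesSix.primes_between_card_le (hT₀ T (by omega))
  obtain ⟨X, hX⟩ : ∃ X, X = N / T ^ 4 := ⟨_, rfl⟩
  rw [← hX]
  set I := (Icc 1 X).filter fun m => N < 16 * (m * T ^ 4)
  set bad := (Icc 1 X).filter fun m => P.card < 2 * (P.filter (· ∣ m)).card
  have hterm : ∀ m ∈ I, ((squareClass g c m N).card : ℝ) ≤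
      rootMod g m * (68 * (T : ℝ) ^ 3) +
        (if m ∈ bad then (rootMod g m : ℝ) * (16 * (T : ℝ) ^ 4) else 0) := by
    intro m hm
    obtain ⟨hm1, hm2⟩ := mem_filter.1 hm
    have hm0 := (mem_Icc.1 hm1).1
    have hA : N / m < 16 * T ^ 4 := (Nat.div_lt_iff_lt_mul hm0).2 (hm2.trans_eq (by ring))
    by_cases hbad : m ∈ bad
    · rw [if_pos hbad]
      refine (squareClass_card_le hm0 hA (Kb := ((16 * T ^ 4 : ℕ) : ℝ)) fun r =>
        Nat.cast_le.2 ((card_filter_le _ _).trans_eq (by simp))).trans ?_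
      push_cast
      exact le_add_of_nonneg_left (by positivity)
    rw [if_neg hbad, add_zero]
    have hgood : 2 * (P.filter (· ∣ m)).card ≤ P.card :=
      not_lt.1 fun h => hbad (mem_filter.2 ⟨hm1, h⟩)
    refine squareClass_card_le hm0 hA fun r => ?_
    set P' := P.filter fun q => ¬q ∣ m
    have hP' : T ≤ P'.card := by
      have := card_filter_add_card_filter_not (s := P) (fun q => q ∣ m)
      change (P.filter (· ∣ m)).card + P'.card = P.card at this
      omega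
    set S := (Ioc 0 (16 * T ^ 4)).filter fun t : ℕ =>
      IsSquare (c * m * Thue.form g ((m : ℤ) * t + r) ((0 : ℤ) * t + 1))
    have hlin := GreavesSix.square_values_on_line hbez h2 (A := 16 * T ^ 4) (Q := T ^ 2)
      (c := c * m) (a := (m : ℤ)) (x := r) (b := 0) (y := 1) P' (fun q hq => ?_) S
      fun t ht => mem_filter.1 ht
    · push_cast at hlin
      have h9 : (T : ℝ) * S.card ≤ P'.card * S.card :=
        mul_le_mul_of_nonneg_right (Nat.cast_le.2 hP') (Nat.cast_nonneg _)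
      refine le_of_mul_le_mul_left ?_ (show (0 : ℝ) < T by exact_mod_cast (by omega : 0 < T))
      linarith [h9, hlin, show (T : ℝ) ^ 2 * (T : ℝ) ^ 2 = (T : ℝ) ^ 4 by ring,
        show (T : ℝ) * (68 * (T : ℝ) ^ 3) = 68 * (T : ℝ) ^ 4 by ring]
    · obtain ⟨hqP, hqm⟩ := mem_filter.1 hq
      obtain ⟨hqp, hqT, hqQ⟩ := hPmem q hqP
      have hsmall : ∀ z : ℤ, z ≠ 0 → z.natAbs < q → ¬(q : ℤ) ∣ z := fun z hz hzq h =>
        absurd (Nat.le_of_dvd (Int.natAbs_pos.2 hz) (Int.natCast_dvd.1 h)) (by omega)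
      refine ⟨hqp, hqQ, by omega, hsmall D hD (by omega),
        hsmall _ (leadingCoeff_ne_zero.2 hg0) (by omega), fun h => hqm ?_, fun h => hqm ?_⟩
      · rw [Int.natCast_dvd, Int.natAbs_mul, hc, one_mul] at h
        simpa using h
      · simpa [Int.natCast_dvd_natCast] using h
  have hT0 : (0 : ℝ) < T := by exact_mod_cast (by omega : 0 < T)
  have hmeanX := hmean X
  push_cast at hmeanX
  have hbadsum : ∑ m ∈ bad, (rootMod g m : ℝ) ≤ 2 * R * C * X / T :=
    GreavesSix.sum_rootMod_many_divisors_le hR hC.le hmean (by omega) P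
      (fun q hq => ⟨(hPmem q hq).1, (hPmem q hq).2.1.le⟩) (by omega) X
  refine (sum_le_sum hterm).trans ?_
  rw [sum_add_distrib, ← sum_filter, ← sum_mul, ← sum_mul]
  have hI : ∑ m ∈ I, (rootMod g m : ℝ) ≤ C * X :=
    (sum_le_sum_of_subset_of_nonneg (filter_subset _ _) fun _ _ _ => Nat.cast_nonneg _).trans hmeanX
  have hIb : ∑ m ∈ I.filter (· ∈ bad), (rootMod g m : ℝ) ≤ 2 * R * C * X / T :=
    (sum_le_sum_of_subset_of_nonneg (fun m hm => (mem_filter.1 hm).2)
      fun _ _ _ => Nat.cast_nonneg _).trans hbadsum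
  refine (add_le_add (mul_le_mul_of_nonneg_right hI (by positivity))
    (mul_le_mul_of_nonneg_right hIb (by positivity))).trans ?_
  have hX4 : (X : ℝ) * (T : ℝ) ^ 4 ≤ N := by
    exact_mod_cast (hX ▸ Nat.div_mul_le_self N (T ^ 4) : X * T ^ 4 ≤ N)
  rw [le_div_iff₀ hT0]
  calc (C * (X : ℝ) * (68 * (T : ℝ) ^ 3) + 2 * R * C * X / T * (16 * (T : ℝ) ^ 4)) * T
      = C * (68 + 32 * R) * (X * (T : ℝ) ^ 4) := by field_simp; ring
    _ ≤ _ := mul_le_mul_of_nonneg_left hX4 (by positivity)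

/-- **Few `n < N` have a prime square beyond `K N` in `g n`.** -/
theorem exists_huge_values_le (hirr : Irreducible g) (h2 : 2 ≤ g.natDegree)
    (h3 : g.natDegree ≤ 3) {η : ℝ} (hη : 0 < η) : ∃ K : ℕ, ∀ N : ℕ,
      (((range N).filter fun n : ℕ => ∃ p : ℕ, p.Prime ∧ K * N ≤ p ∧
        (p : ℤ) ^ 2 ∣ g.eval (n : ℤ)).card : ℝ) ≤ η * N := by
  obtain ⟨K, T₁, hK, hlevel⟩ := exists_level_bound hirr h2
  obtain ⟨T₂, hT₂⟩ := exists_nat_ge (4 * K / η)
  obtain ⟨T0, hT0⟩ : ∃ T0, T0 = max (max T₁ T₂) 1 := ⟨_, rfl⟩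
  set H := ∑ i ∈ range (g.natDegree + 1), (g.coeff i).natAbs with hH
  refine ⟨(H + 1) * T0 ^ 2, fun N => ?_⟩
  set S := (range N).filter fun n : ℕ => ∃ p : ℕ, p.Prime ∧ (H + 1) * T0 ^ 2 * N ≤ p ∧
    (p : ℤ) ^ 2 ∣ g.eval (n : ℤ)
  set lev := fun i : ℕ => (Icc 1 (N / (T0 * 2 ^ i) ^ 4)).filter
    fun m => N < 16 * (m * (T0 * 2 ^ i) ^ 4)
  have hcover : S ⊆ (range (N + 1)).biUnion fun i => ({1, -1} : Finset ℤ).biUnion fun c =>
      (lev i).biUnion fun m => squareClass g c m N := by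
    intro n hn
    obtain ⟨hn1, p, hp, hKp, hpd⟩ := mem_filter.1 hn
    have hnN := mem_range.1 hn1
    have hN : 0 < N := by omega
    obtain ⟨F, hF⟩ : ∃ F, F = g.eval (n : ℤ) := ⟨_, rfl⟩
    have hF0 : F ≠ 0 := by
      rw [hF, ← form_one]
      exact GreavesSix.form_ne_zero hirr h2 one_ne_zero
    rw [← hF, ← Nat.cast_pow, Int.natCast_dvd] at hpd
    obtain ⟨q, hq⟩ := hpd
    have hq0 : 0 < q := Nat.pos_of_ne_zero fun h =>
      Int.natAbs_ne_zero.2 hF0 (by rw [hq, h, mul_zero])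
    have hqN : q * T0 ^ 4 ≤ N := by
      have h4 : q * T0 ^ 4 * ((H + 1) * N ^ 2) ≤ N * ((H + 1) * N ^ 2) := by
        calc q * T0 ^ 4 * ((H + 1) * N ^ 2) ≤ q * T0 ^ 4 * ((H + 1) ^ 2 * N ^ 2) := by
              gcongr
              exact Nat.le_self_pow two_ne_zero _
          _ = ((H + 1) * T0 ^ 2 * N) ^ 2 * q := by ring
          _ ≤ p ^ 2 * q := by gcongr
          _ ≤ H * N ^ 3 := by
              rw [← hq, hF]
              exact eval_natAbs_le g hnN h3
          _ ≤ (H + 1) * N ^ 3 := by gcongr; exact Nat.le_succ H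
          _ = _ := by ring
      exact Nat.le_of_mul_le_mul_right h4 (by positivity)
    obtain ⟨m, b, hm0, hb0, hab, -⟩ := Nat.sq_mul_squarefree_of_pos hq0
    have hmF : (m : ℤ) ∣ F := Int.natCast_dvd.2 ⟨p ^ 2 * b ^ 2, by rw [hq, ← hab]; ring⟩
    have hmq : m ≤ q := hab ▸ Nat.le_mul_of_pos_left m (by positivity)
    have hcC : F.sign ∈ ({1, -1} : Finset ℤ) := by
      rcases lt_trichotomy F 0 with h | h | h
      · simp [Int.sign_eq_neg_one_of_neg h]
      · exact absurd h hF0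
      · simp [Int.sign_eq_one_of_pos h]
    have hsq : IsSquare (F.sign * m * F) := by
      refine ⟨((p * b * m : ℕ) : ℤ), ?_⟩
      rw [show F.sign * (m : ℤ) * F = (m : ℤ) * (F.sign * F) by ring, Int.sign_mul_self_eq_abs,
        Int.abs_eq_natAbs, hq, ← hab]
      push_cast
      ring
    have hbig : N < m * (T0 * 2 ^ (N + 1)) ^ 4 := by
      calc N < 2 ^ (N + 1) := (Nat.lt_succ_self N).trans Nat.lt_two_pow_self
        _ ≤ T0 * 2 ^ (N + 1) := Nat.le_mul_of_pos_left _ (by omega)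
        _ ≤ (T0 * 2 ^ (N + 1)) ^ 4 := Nat.le_self_pow (by omega) _
        _ ≤ _ := Nat.le_mul_of_pos_left _ hm0
    have hex : ∃ i, N < m * (T0 * 2 ^ (i + 1)) ^ 4 := ⟨N, hbig⟩
    refine mem_biUnion.2 ⟨Nat.find hex, mem_range.2 (Nat.lt_succ_of_le (Nat.find_min' hex hbig)),
      mem_biUnion.2 ⟨F.sign, hcC, mem_biUnion.2 ⟨m, mem_filter.2 ⟨mem_Icc.2 ⟨hm0, ?_⟩, ?_⟩,
        mem_filter.2 ⟨hn1, hF ▸ hmF, hF ▸ hsq⟩⟩⟩⟩
    · rw [Nat.le_div_iff_mul_le (pow_pos (Nat.mul_pos (by omega) (by positivity)) 4)]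
      rcases Nat.eq_zero_or_pos (Nat.find hex) with h0 | h0
      · rw [h0, pow_zero, mul_one]
        exact (Nat.mul_le_mul_right _ hmq).trans hqN
      · obtain ⟨i, hi⟩ := Nat.exists_eq_succ_of_ne_zero h0.ne'
        have h5 := Nat.find_min hex (m := i) (by omega)
        rw [not_lt] at h5
        rwa [hi]
    · exact (Nat.find_spec hex).trans_eq (by rw [pow_succ]; ring)
  have hT0pos : (0 : ℝ) < T0 := by exact_mod_cast (by omega : 0 < T0)
  calc (S.card : ℝ)
      ≤ ∑ i ∈ range (N + 1), ∑ c ∈ ({1, -1} : Finset ℤ), ∑ m ∈ lev i,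
          ((squareClass g c m N).card : ℝ) := by
        exact_mod_cast (card_le_card hcover).trans (card_biUnion_le.trans (sum_le_sum fun i _ =>
          card_biUnion_le.trans (sum_le_sum fun c _ => card_biUnion_le)))
    _ ≤ ∑ i ∈ range (N + 1), 2 * (K * (N : ℝ) / T0) * (1 / 2) ^ i := by
        refine sum_le_sum fun i _ => ?_
        refine (sum_le_card_nsmul _ _ (K * (N : ℝ) / ((T0 * 2 ^ i : ℕ) : ℝ))
          fun c hc => ?_).trans_eq ?_
        · refine hlevel _ (le_trans (by omega) (Nat.le_mul_of_pos_right T0 (by positivity))) N c ?_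
          rcases mem_insert.1 hc with rfl | hc
          · rfl
          · rw [mem_singleton.1 hc]; rfl
        · rw [nsmul_eq_mul, div_pow, one_pow, show ({1, -1} : Finset ℤ).card = 2 from rfl]
          push_cast
          field_simp
    _ ≤ 2 * (K * (N : ℝ) / T0) * 2 := by
        rw [← mul_sum]
        exact mul_le_mul_of_nonneg_left (sum_geometric_two_le _) (by positivity)
    _ ≤ _ := by
        have h4 : 4 * K ≤ η * T0 := by
          have h5 : (T₂ : ℝ) ≤ T0 := Nat.cast_le.2 (by omega)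
          rw [div_le_iff₀ hη] at hT₂
          nlinarith
        rw [show 2 * (K * (N : ℝ) / T0) * 2 = 4 * K * N / T0 by ring, div_le_iff₀ hT0pos]
        nlinarith [mul_le_mul_of_nonneg_right h4 (Nat.cast_nonneg (α := ℝ) N)]

end FA.HooleyCubic

end
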